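import Mathlib
import Fermat.Prelude.Def_ModularCurve_PeriodMap
import Fermat.Agent.S20.PermEigen
import Fermat.Agent.MU.S20.Cosets

section MergeWrap_S21_GroupLinAlg -- from S21/GroupLinAlg.lean

set_option autoImplicit false
set_option linter.unusedSectionVars false

noncomputable section

namespace Fermat.Agent.S21

open Module

section LinAlg

variable {G : Type*} [Group G] {X : Type} [Fintype X] [DecidableEq X] [MulAction G X]

/-- pull back functions along the action of `g`. -/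
def pullL (g : G) : (X → ℂ) →ₗ[ℂ] (X → ℂ) :=
  LinearMap.funLeft ℂ ℂ (fun x => g • x)

@[simp] lemma pullL_apply (g : G) (f : X → ℂ) (x : X) : pullL g f x = f (g • x) := rfl

/-- The orbit space of `T`. -/
abbrev OrbT (T : G) (X : Type) [MulAction G X] : Type :=
  MulAction.orbitRel.Quotient (Subgroup.zpowers T) X

/-- class of a point in the orbit space of `T`. -/
def orbMk (T : G) (x : X) : OrbT T X := Quotient.mk'' x

lemma orbMk_smul (T : G) (x : X) : orbMk T (T • x) = orbMk T x := by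
  apply Quotient.sound'
  refine ⟨⟨T, Subgroup.mem_zpowers T⟩, rfl⟩

lemma orbMk_surjective (T : G) : Function.Surjective (orbMk (X := X) T) :=
  Quotient.mk''_surjective

open Classical in
/-- Orbit sums. -/
def orbSum (T : G) : (X → ℂ) →ₗ[ℂ] (OrbT T X → ℂ) where
  toFun t := fun ω => ∑ x, if orbMk T x = ω then t x else 0
  map_add' s t := by
    funext ω
    simp only [Pi.add_apply]
    rw [← Finset.sum_add_distrib]
    refine Finset.sum_congr rfl fun x _ => ?_
    split_ifs <;> simp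
  map_smul' c t := by
    funext ω
    simp only [Pi.smul_apply, smul_eq_mul, RingHom.id_apply]
    rw [Finset.mul_sum]
    refine Finset.sum_congr rfl fun x _ => ?_
    split_ifs <;> simp

open Classical in
lemma orbSum_apply (T : G) (t : X → ℂ) (ω : OrbT T X) :
    orbSum T t ω = ∑ x, if orbMk T x = ω then t x else 0 := rfl

/-- The space `A` of `S`-anti-invariant functions. -/
def spaceA (S : G) : Submodule ℂ (X → ℂ) := LinearMap.ker (pullL S + LinearMap.id)

/-- The space `B`: kernel of `1 + R + R²`. -/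
def spaceB (R : G) : Submodule ℂ (X → ℂ) :=
  LinearMap.ker (LinearMap.id + pullL R + pullL R ∘ₗ pullL R)

lemma mem_spaceA {S : G} {a : X → ℂ} : a ∈ spaceA S ↔ ∀ x, a (S • x) + a x = 0 := by
  simp only [spaceA, LinearMap.mem_ker]
  constructor
  · intro h x
    have := congrFun h x
    simpa using this
  · intro h
    funext x
    simpa using h x

lemma mem_spaceB {R : G} {r : X → ℂ} :
    r ∈ spaceB R ↔ ∀ x, r x + r (R • x) + r (R • R • x) = 0 := by
  simp only [spaceB, LinearMap.mem_ker]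
  constructor
  · intro h x
    have := congrFun h x
    simpa using this
  · intro h
    funext x
    simpa using h x

/-- The constraint map `(a, r) ↦ orbit sums of r - a∘T` on `A × B`. -/
def psiMap (S R T : G) :
    (spaceA (X := X) S × spaceB (X := X) R) →ₗ[ℂ] (OrbT T X → ℂ) :=
  (orbSum T) ∘ₗ
    ((spaceB R).subtype ∘ₗ LinearMap.snd ℂ _ _ -
      pullL T ∘ₗ (spaceA S).subtype ∘ₗ LinearMap.fst ℂ _ _)

lemma psiMap_apply (S R T : G) (p : spaceA (X := X) S × spaceB (X := X) R) :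
    psiMap S R T p = orbSum T ((p.2 : X → ℂ) - pullL T (p.1 : X → ℂ)) := rfl

/-- The space `Z`. -/
def spaceZ (S R T : G) : Submodule ℂ ((X → ℂ) × (X → ℂ)) where
  carrier := {p | p.1 ∈ spaceA S ∧ p.2 ∈ spaceB R ∧ orbSum T (p.2 - pullL T p.1) = 0}
  zero_mem' := by
    refine ⟨Submodule.zero_mem _, Submodule.zero_mem _, ?_⟩
    simp
  add_mem' := by
    rintro p q ⟨hp1, hp2, hp3⟩ ⟨hq1, hq2, hq3⟩
    refine ⟨Submodule.add_mem _ hp1 hq1, Submodule.add_mem _ hp2 hq2, ?_⟩
    have : (p + q).2 - pullL T (p + q).1 = (p.2 - pullL T p.1) + (q.2 - pullL T q.1) := by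
      simp only [Prod.snd_add, Prod.fst_add, map_add]; abel
    rw [this, map_add, hp3, hq3, add_zero]
  smul_mem' := by
    rintro c p ⟨hp1, hp2, hp3⟩
    refine ⟨Submodule.smul_mem _ c hp1, Submodule.smul_mem _ c hp2, ?_⟩
    have : (c • p).2 - pullL T (c • p).1 = c • (p.2 - pullL T p.1) := by
      simp only [Prod.smul_snd, Prod.smul_fst, map_smul, smul_sub]
    rw [this, map_smul, hp3, smul_zero]

lemma mem_spaceZ {S R T : G} {p : (X → ℂ) × (X → ℂ)} :
    p ∈ spaceZ S R T ↔ p.1 ∈ spaceA S ∧ p.2 ∈ spaceB R ∧ orbSum T (p.2 - pullL T p.1) = 0 :=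
  Iff.rfl

/-! ### Step 1, 2: dimensions of `A` and `B` -/

lemma finrank_spaceA_le (S : G) (hS : ∀ x : X, S • S • x = x) :
    2 * finrank ℂ (spaceA (X := X) S) + Fintype.card {x : X // S • x = x} ≤ Fintype.card X := by
  have hσ : MulAction.toPerm S * MulAction.toPerm S = (1 : Equiv.Perm X) := by
    ext x; simp [hS]
  have h := Fermat.Agent.S20.finrank_permEigen_two_neg_one (MulAction.toPerm S : Equiv.Perm X) hσ
  have hle : spaceA (X := X) S ≤ Fermat.Agent.S20.permEigen (MulAction.toPerm S) (-1) := by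
    intro a ha
    rw [mem_spaceA] at ha
    intro x
    have := ha x
    simp only [MulAction.toPerm_apply]
    linear_combination this
  have h2 := Submodule.finrank_mono hle
  have h3 : Fintype.card {x : X // (MulAction.toPerm S) x = x}
      = Fintype.card {x : X // S • x = x} := rfl
  omega

lemma finrank_spaceB_le (R : G) (hR : ∀ x : X, R • R • R • x = x) :
    3 * finrank ℂ (spaceB (X := X) R) + 2 * Fintype.card {x : X // R • x = x}
      ≤ 2 * Fintype.card X := by
  have hσ : MulAction.toPerm R * MulAction.toPerm R * MulAction.toPerm R = (1 : Equiv.Perm X) := by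
    ext x; simp [hR]
  have h := Fermat.Agent.S20.finrank_permEigen_three_one (MulAction.toPerm R : Equiv.Perm X) hσ
  set N : (X → ℂ) →ₗ[ℂ] (X → ℂ) := LinearMap.id + pullL R + pullL R ∘ₗ pullL R with hN
  have hle : Fermat.Agent.S20.permEigen (MulAction.toPerm R) 1 ≤ LinearMap.range N := by
    intro v hv
    have hv' : ∀ x, v (R • x) = v x := by
      intro x
      have := hv x
      simpa using this
    refine ⟨(3 : ℂ)⁻¹ • v, ?_⟩
    funext x
    simp only [hN, LinearMap.add_apply, LinearMap.id_coe, id_eq, LinearMap.coe_comp,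
      Function.comp_apply, Pi.add_apply, pullL_apply, Pi.smul_apply, smul_eq_mul, hv']
    ring
  have h2 := Submodule.finrank_mono hle
  have h3 := LinearMap.finrank_range_add_finrank_ker N
  have h4 : finrank ℂ (X → ℂ) = Fintype.card X := Module.finrank_fintype_fun_eq_card ℂ
  have h5 : Fintype.card {x : X // (MulAction.toPerm R) x = x}
      = Fintype.card {x : X // R • x = x} := rfl
  have h6 : finrank ℂ (LinearMap.ker N) = finrank ℂ (spaceB (X := X) R) := rfl
  omega

/-! ### Step 3: `Z` versus the kernel of `psiMap` -/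

lemma finrank_spaceZ_le (S R T : G) :
    finrank ℂ (spaceZ (X := X) S R T) + finrank ℂ (LinearMap.range (psiMap (X := X) S R T))
      ≤ finrank ℂ (spaceA (X := X) S) + finrank ℂ (spaceB (X := X) R) := by
  have h1 := LinearMap.finrank_range_add_finrank_ker (psiMap (X := X) S R T)
  rw [Module.finrank_prod] at h1
  -- the map `Z → ker psiMap`
  let j : spaceZ (X := X) S R T →ₗ[ℂ] (spaceA (X := X) S × spaceB (X := X) R) :=
    LinearMap.prod
      (LinearMap.codRestrict (spaceA S) (LinearMap.fst ℂ _ _ ∘ₗ (spaceZ S R T).subtype)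
        (fun p => p.2.1))
      (LinearMap.codRestrict (spaceB R) (LinearMap.snd ℂ _ _ ∘ₗ (spaceZ S R T).subtype)
        (fun p => p.2.2.1))
  have hj : Function.Injective j := by
    intro p q hpq
    have h1 := congrArg (fun z => (z.1 : X → ℂ)) hpq
    have h2 := congrArg (fun z => (z.2 : X → ℂ)) hpq
    apply Subtype.ext
    exact Prod.ext h1 h2
  have hjr : LinearMap.range j ≤ LinearMap.ker (psiMap (X := X) S R T) := by
    rintro _ ⟨p, rfl⟩
    rw [LinearMap.mem_ker, psiMap_apply]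
    exact p.2.2.2
  have h2 : finrank ℂ (spaceZ (X := X) S R T) = finrank ℂ (LinearMap.range j) :=
    (LinearMap.finrank_range_of_inj hj).symm
  have h3 := Submodule.finrank_mono hjr
  omega

end LinAlg

end Fermat.Agent.S21
end
end MergeWrap_S21_GroupLinAlg

section MergeWrap_S21_GroupCocycle -- from S21/GroupCocycle.lean

set_option autoImplicit false
set_option linter.unusedSectionVars false

noncomputable section

namespace Fermat.Agent.S21

open Module

section Cocycle

variable {G : Type} [Group G] (Γ : Subgroup G)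

/-- Homomorphisms `Γ → ℂ` vanishing on all conjugates of powers of `T` lying in `Γ`. -/
def absPar (T : G) : Submodule ℂ (Additive Γ →+ ℂ) where
  carrier := {φ | ∀ (g : G) (m : ℕ) (h : g⁻¹ * T ^ m * g ∈ Γ), φ (Additive.ofMul ⟨_, h⟩) = 0}
  zero_mem' := fun _ _ _ => rfl
  add_mem' := by
    intro φ ψ hφ hψ g m h
    show φ _ + ψ _ = 0
    rw [hφ g m h, hψ g m h, add_zero]
  smul_mem' := by
    intro c φ hφ g m h
    show c • φ _ = 0
    rw [hφ g m h, smul_zero]

lemma mem_absPar {T : G} {φ : Additive Γ →+ ℂ} :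
    φ ∈ absPar Γ T ↔
      ∀ (g : G) (m : ℕ) (h : g⁻¹ * T ^ m * g ∈ Γ), φ (Additive.ofMul ⟨_, h⟩) = 0 := Iff.rfl

lemma out_inv_mul_mem (g : G) : (Quotient.out (g : G ⧸ Γ))⁻¹ * g ∈ Γ := by
  rw [← QuotientGroup.eq]
  exact QuotientGroup.out_eq' _

/-- the `Γ`-part of `g` with respect to the chosen coset representatives. -/
def gammaPart (g : G) : Γ := ⟨(Quotient.out (g : G ⧸ Γ))⁻¹ * g, out_inv_mul_mem Γ g⟩

lemma gammaPart_mul (g : G) (γ : Γ) : gammaPart Γ (g * γ) = gammaPart Γ g * γ := by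
  apply Subtype.ext
  have h : ((g * γ : G) : G ⧸ Γ) = (g : G ⧸ Γ) := by
    rw [QuotientGroup.eq]
    simp
  simp only [gammaPart, h, Subgroup.coe_mul, mul_assoc]

/-- the equivariant primitive attached to `(φ, v)`. -/
def primU (φ : Additive Γ →+ ℂ) (v : G ⧸ Γ → ℂ) (g : G) : ℂ :=
  φ (Additive.ofMul (gammaPart Γ g)) + v (g : G ⧸ Γ)

lemma primU_mul (φ : Additive Γ →+ ℂ) (v : G ⧸ Γ → ℂ) (g : G) (γ : Γ) :
    primU Γ φ v (g * γ) = primU Γ φ v g + φ (Additive.ofMul γ) := by
  have h : ((g * γ : G) : G ⧸ Γ) = (g : G ⧸ Γ) := by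
    rw [QuotientGroup.eq]
    simp
  simp only [primU, gammaPart_mul, h, ofMul_mul, map_add]
  ring

lemma primU_mul' (φ : Additive Γ →+ ℂ) (v : G ⧸ Γ → ℂ) (g γ : G) (hγ : γ ∈ Γ) :
    primU Γ φ v (g * γ) = primU Γ φ v g + φ (Additive.ofMul ⟨γ, hγ⟩) :=
  primU_mul Γ φ v g ⟨γ, hγ⟩

/-- the cochain `x ↦ u (s g) - u g`, `g ∈ x`. -/
def dC (s : G) (φ : Additive Γ →+ ℂ) (v : G ⧸ Γ → ℂ) (x : G ⧸ Γ) : ℂ :=
  primU Γ φ v (s * Quotient.out x) - primU Γ φ v (Quotient.out x)

lemma dC_mk (s : G) (φ : Additive Γ →+ ℂ) (v : G ⧸ Γ → ℂ) (g : G) :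
    dC Γ s φ v (g : G ⧸ Γ) = primU Γ φ v (s * g) - primU Γ φ v g := by
  have hg : g = Quotient.out (g : G ⧸ Γ) * (gammaPart Γ g : G) := by
    simp [gammaPart]
  have h1 := primU_mul Γ φ v (Quotient.out (g : G ⧸ Γ)) (gammaPart Γ g)
  have h2 := primU_mul Γ φ v (s * Quotient.out (g : G ⧸ Γ)) (gammaPart Γ g)
  rw [mul_assoc, ← hg] at h2
  rw [← hg] at h1
  rw [dC, h1, h2]
  ring

lemma dC_smul_mk (s : G) (φ : Additive Γ →+ ℂ) (v : G ⧸ Γ → ℂ) (h g : G) :
    dC Γ s φ v (h • (g : G ⧸ Γ)) = primU Γ φ v (s * (h * g)) - primU Γ φ v (h * g) := by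
  have : h • (g : G ⧸ Γ) = ((h * g : G) : G ⧸ Γ) := rfl
  rw [this, dC_mk]

lemma dC_mul (s t : G) (φ : Additive Γ →+ ℂ) (v : G ⧸ Γ → ℂ) (x : G ⧸ Γ) :
    dC Γ (s * t) φ v x = dC Γ s φ v (t • x) + dC Γ t φ v x := by
  obtain ⟨g, rfl⟩ := QuotientGroup.mk_surjective x
  rw [dC_smul_mk, dC_mk, dC_mk, mul_assoc]
  ring

lemma dC_add (s : G) (φ ψ : Additive Γ →+ ℂ) (v w : G ⧸ Γ → ℂ) :
    dC Γ s (φ + ψ) (v + w) = dC Γ s φ v + dC Γ s ψ w := by
  funext x
  simp only [dC, primU, AddMonoidHom.add_apply, Pi.add_apply]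
  ring

lemma dC_smul (s : G) (c : ℂ) (φ : Additive Γ →+ ℂ) (v : G ⧸ Γ → ℂ) :
    dC Γ s (c • φ) (c • v) = c • dC Γ s φ v := by
  funext x
  simp only [dC, primU, AddMonoidHom.smul_apply, Pi.smul_apply, smul_eq_mul]
  ring

/-- the main linear map `(φ, v) ↦ ((D_S u, D_R u), v(1))`. -/
def thetaMap (S R T : G) :
    (absPar Γ T × (G ⧸ Γ → ℂ)) →ₗ[ℂ] ((G ⧸ Γ → ℂ) × (G ⧸ Γ → ℂ)) × ℂ where
  toFun p := ((dC Γ S p.1.1 p.2, dC Γ R p.1.1 p.2), p.2 ((1 : G) : G ⧸ Γ))
  map_add' p q := by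
    simp only [Prod.fst_add, Prod.snd_add, Submodule.coe_add, dC_add, Pi.add_apply, Prod.mk_add_mk]
  map_smul' c p := by
    simp only [Prod.smul_fst, Prod.smul_snd, Submodule.coe_smul, dC_smul, Pi.smul_apply,
      Prod.smul_mk, RingHom.id_apply]

lemma thetaMap_apply (S R T : G) (p : absPar Γ T × (G ⧸ Γ → ℂ)) :
    thetaMap Γ S R T p = ((dC Γ S p.1.1 p.2, dC Γ R p.1.1 p.2), p.2 ((1 : G) : G ⧸ Γ)) := rfl

/-- Injectivity of `thetaMap`. -/
theorem thetaMap_injective (S T : G) (hgen : Subgroup.closure {S, T} = (⊤ : Subgroup G)) :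
    Function.Injective (thetaMap Γ S (S * T) T) := by
  rw [← LinearMap.ker_eq_bot, LinearMap.ker_eq_bot']
  rintro ⟨⟨φ, hφ⟩, v⟩ h
  rw [thetaMap_apply] at h
  simp only [Prod.mk_eq_zero] at h
  obtain ⟨⟨hS, hR⟩, h1⟩ := h
  set u := primU Γ φ v with hu
  -- invariance under S and R
  have hSu : ∀ g, u (S * g) = u g := by
    intro g
    have := congrFun hS (g : G ⧸ Γ)
    rw [dC_mk] at this
    simpa [sub_eq_zero] using this
  have hRu : ∀ g, u (S * T * g) = u g := by
    intro g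
    have := congrFun hR (g : G ⧸ Γ)
    rw [dC_mk] at this
    simpa [sub_eq_zero] using this
  have hTu : ∀ g, u (T * g) = u g := by
    intro g
    rw [← hSu (T * g), ← mul_assoc, hRu]
  -- the stabilizer subgroup
  let H : Subgroup G :=
    { carrier := {h | ∀ g, u (h * g) = u g}
      one_mem' := by intro g; simp
      mul_mem' := by
        intro a b ha hb g
        rw [mul_assoc, ha, hb]
      inv_mem' := by
        intro a ha g
        have := ha (a⁻¹ * g)
        rw [mul_inv_cancel_left] at this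
        exact this.symm }
  have hH : H = ⊤ := by
    rw [eq_top_iff, ← hgen, Subgroup.closure_le]
    rintro x (rfl | rfl)
    · exact hSu
    · exact hTu
  have hconst : ∀ g, u g = u 1 := by
    intro g
    have : g ∈ H := by rw [hH]; trivial
    simpa using this 1
  have hφ0 : φ = 0 := by
    ext γ
    have h2 := primU_mul Γ φ v 1 γ
    rw [one_mul] at h2
    have h3 := hconst (γ : G)
    rw [← hu] at h2
    rw [h3] at h2
    simpa using h2.symm
  subst hφ0
  have hv : v = 0 := by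
    funext x
    obtain ⟨g, rfl⟩ := QuotientGroup.mk_surjective x
    have h3 := hconst g
    simp only [hu, primU, AddMonoidHom.zero_apply, zero_add] at h3
    rw [h3, h1]
    rfl
  subst hv
  rfl

end Cocycle

end Fermat.Agent.S21
end
end MergeWrap_S21_GroupCocycle

section MergeWrap_S21_GroupImage -- from S21/GroupImage.lean

set_option autoImplicit false
set_option linter.unusedSectionVars false

noncomputable section

namespace Fermat.Agent.S21

open Module

section Image

variable {G : Type} [Group G] (Γ : Subgroup G) [Fintype (G ⧸ Γ)] [DecidableEq (G ⧸ Γ)]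

lemma dC_central (z : G) (hzc : ∀ g, z * g = g * z) (hzΓ : z ∈ Γ) (hz2 : z * z = 1)
    (φ : Additive Γ →+ ℂ) (v : G ⧸ Γ → ℂ) (x : G ⧸ Γ) : dC Γ z φ v x = 0 := by
  obtain ⟨g, rfl⟩ := QuotientGroup.mk_surjective x
  rw [dC_mk, hzc, primU_mul' Γ φ v g z hzΓ]
  have h1 : φ (Additive.ofMul (⟨z, hzΓ⟩ : Γ)) + φ (Additive.ofMul (⟨z, hzΓ⟩ : Γ)) = 0 := by
    rw [← map_add, ← ofMul_mul]
    have : (⟨z, hzΓ⟩ : Γ) * ⟨z, hzΓ⟩ = 1 := Subtype.ext hz2
    rw [this]
    simp
  have h2 : φ (Additive.ofMul (⟨z, hzΓ⟩ : Γ)) = 0 := by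
    have : (2 : ℂ) * φ (Additive.ofMul (⟨z, hzΓ⟩ : Γ)) = 0 := by linear_combination h1
    simpa using this
  rw [h2]
  ring

lemma dC_S_mem (S z : G) (hS : S * S = z) (hzc : ∀ g, z * g = g * z) (hzΓ : z ∈ Γ)
    (hz2 : z * z = 1) (φ : Additive Γ →+ ℂ) (v : G ⧸ Γ → ℂ) :
    dC Γ S φ v ∈ spaceA (X := G ⧸ Γ) S := by
  rw [mem_spaceA]
  intro x
  rw [← dC_mul, hS, dC_central Γ z hzc hzΓ hz2]

lemma dC_R_mem (R z : G) (hR : R * R * R = z) (hzc : ∀ g, z * g = g * z) (hzΓ : z ∈ Γ)
    (hz2 : z * z = 1) (φ : Additive Γ →+ ℂ) (v : G ⧸ Γ → ℂ) :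
    dC Γ R φ v ∈ spaceB (X := G ⧸ Γ) R := by
  rw [mem_spaceB]
  intro x
  have h := dC_central Γ z hzc hzΓ hz2 φ v x
  rw [← hR, dC_mul, dC_mul] at h
  rw [← h, smul_smul]
  ring

/-- telescoping along a `T`-orbit. -/
lemma sum_range_dC_T (T : G) (φ : Additive Γ →+ ℂ) (v : G ⧸ Γ → ℂ) (g : G) (m : ℕ) :
    ∑ i ∈ Finset.range m, dC Γ T φ v (T ^ i • (g : G ⧸ Γ))
      = primU Γ φ v (T ^ m * g) - primU Γ φ v g := by
  induction m with
  | zero => simp
  | succ m ih =>
    rw [Finset.sum_range_succ, ih, dC_smul_mk, pow_succ', mul_assoc]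
    ring

lemma primU_pow_mul_of_fixed (T : G) (φ : Additive Γ →+ ℂ) (hφ : φ ∈ absPar Γ T)
    (v : G ⧸ Γ → ℂ) (g : G) (m : ℕ) (hm : T ^ m • (g : G ⧸ Γ) = (g : G ⧸ Γ)) :
    primU Γ φ v (T ^ m * g) = primU Γ φ v g := by
  have hmem : g⁻¹ * T ^ m * g ∈ Γ := by
    have : ((T ^ m * g : G) : G ⧸ Γ) = (g : G ⧸ Γ) := hm
    rw [eq_comm, QuotientGroup.eq] at this
    rwa [mul_assoc]
  have h1 := primU_mul' Γ φ v g _ hmem
  rw [mem_absPar] at hφ
  rw [hφ g m hmem, add_zero] at h1
  rw [← h1]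
  congr 1
  group

open Classical in
/-- the fibre of `orbMk T` through `x` is the image of `i ↦ T ^ i • x`, `i < minimal period`. -/
lemma filter_orbMk_eq (T : G) (x : G ⧸ Γ) :
    (Finset.univ.filter fun y : G ⧸ Γ => orbMk T y = orbMk T x)
      = (Finset.range (Function.minimalPeriod (T • · : G ⧸ Γ → G ⧸ Γ) x)).image
          (fun i => T ^ i • x) := by
  have hpos : 0 < Function.minimalPeriod (T • · : G ⧸ Γ → G ⧸ Γ) x :=
    Function.minimalPeriod_pos_of_mem_periodicPts
      ((MulAction.injective T).mem_periodicPts x)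
  ext y
  simp only [Finset.mem_filter, Finset.mem_univ, true_and, Finset.mem_image, Finset.mem_range]
  constructor
  · intro h
    have h' : y ∈ MulAction.orbit (Subgroup.zpowers T) x := by
      have := Quotient.exact' h
      exact this
    obtain ⟨⟨t, ht⟩, rfl⟩ := h'
    obtain ⟨k, rfl⟩ := Subgroup.mem_zpowers_iff.mp ht
    set m := Function.minimalPeriod (T • · : G ⧸ Γ → G ⧸ Γ) x with hm
    have hm0 : (0 : ℤ) < (m : ℤ) := by exact_mod_cast hpos
    refine ⟨(k % (m : ℤ)).toNat, ?_, ?_⟩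
    · have := Int.emod_lt_of_pos k hm0
      have h0 := Int.emod_nonneg k hm0.ne'
      omega
    · have h0 := Int.emod_nonneg k hm0.ne'
      have h1 := MulAction.zpow_smul_mod_minimalPeriod (a := T) (b := x) k
      have h2 : T ^ (k % (m : ℤ)).toNat = T ^ (k % (m : ℤ)) := by
        rw [← zpow_natCast, Int.toNat_of_nonneg h0]
      rw [h2]
      exact h1
  · rintro ⟨i, -, rfl⟩
    apply Quotient.sound'
    exact ⟨⟨T ^ i, Subgroup.pow_mem _ (Subgroup.mem_zpowers T) i⟩, rfl⟩

lemma orbSum_dC_T (T : G) (φ : Additive Γ →+ ℂ) (hφ : φ ∈ absPar Γ T) (v : G ⧸ Γ → ℂ) :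
    orbSum T (dC Γ T φ v) = 0 := by
  classical
  funext ω
  obtain ⟨x, rfl⟩ := orbMk_surjective T ω
  obtain ⟨g, rfl⟩ := QuotientGroup.mk_surjective x
  rw [orbSum_apply, ← Finset.sum_filter]
  have hfil := filter_orbMk_eq Γ T (g : G ⧸ Γ)
  have hfil' : (Finset.univ.filter fun y : G ⧸ Γ => orbMk T y = orbMk T (g : G ⧸ Γ))
      = (Finset.range (Function.minimalPeriod (T • · : G ⧸ Γ → G ⧸ Γ) (g : G ⧸ Γ))).image
          (fun i => T ^ i • (g : G ⧸ Γ)) := by
    convert hfil
  rw [hfil', Finset.sum_image]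
  · rw [sum_range_dC_T, primU_pow_mul_of_fixed Γ T φ hφ v g]
    · simp
    · have := Function.isPeriodicPt_minimalPeriod (T • · : G ⧸ Γ → G ⧸ Γ) (g : G ⧸ Γ)
      rw [Function.IsPeriodicPt, Function.IsFixedPt, smul_iterate_apply] at this
      exact this
  · intro i hi j hj hij
    have := Function.iterate_injOn_Iio_minimalPeriod (f := (T • · : G ⧸ Γ → G ⧸ Γ))
      (x := (g : G ⧸ Γ)) (Finset.mem_range.mp hi) (Finset.mem_range.mp hj)
    apply this
    simp only [smul_iterate_apply]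
    exact hij

/-- The image of `thetaMap` lies in `Z × ℂ`. -/
theorem thetaMap_mem (S T z : G) (hS : S * S = z) (hR : (S * T) * (S * T) * (S * T) = z)
    (hzc : ∀ g, z * g = g * z) (hzΓ : z ∈ Γ) (hz2 : z * z = 1)
    (p : absPar Γ T × (G ⧸ Γ → ℂ)) :
    (thetaMap Γ S (S * T) T p).1 ∈ spaceZ (X := G ⧸ Γ) S (S * T) T := by
  rw [thetaMap_apply, mem_spaceZ]
  refine ⟨dC_S_mem Γ S z hS hzc hzΓ hz2 _ _, dC_R_mem Γ (S * T) z hR hzc hzΓ hz2 _ _, ?_⟩
  have : dC Γ (S * T) p.1.1 p.2 - pullL T (dC Γ S p.1.1 p.2) = dC Γ T p.1.1 p.2 := by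
    funext x
    simp only [Pi.sub_apply, pullL_apply, dC_mul]
    ring
  simp only
  rw [this]
  exact orbSum_dC_T Γ T p.1.1 p.1.2 p.2

end Image

end Fermat.Agent.S21
end
end MergeWrap_S21_GroupImage

section MergeWrap_S21_GroupBound -- from S21/GroupBound.lean

set_option autoImplicit false
set_option linter.unusedSectionVars false

noncomputable section

namespace Fermat.Agent.S21

open Module

section AbsBound

variable {G : Type} [Group G] (Γ : Subgroup G) [Fintype (G ⧸ Γ)] [DecidableEq (G ⧸ Γ)]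

/-- `thetaMap` corestricted to `Z × ℂ`. -/
def thetaMapZ (S T z : G) (hS : S * S = z) (hR : (S * T) * (S * T) * (S * T) = z)
    (hzc : ∀ g, z * g = g * z) (hzΓ : z ∈ Γ) (hz2 : z * z = 1) :
    (absPar Γ T × (G ⧸ Γ → ℂ)) →ₗ[ℂ] (spaceZ (X := G ⧸ Γ) S (S * T) T × ℂ) :=
  LinearMap.prod
    (LinearMap.codRestrict (spaceZ (X := G ⧸ Γ) S (S * T) T)
      (LinearMap.fst ℂ _ _ ∘ₗ thetaMap Γ S (S * T) T)
      (fun p => thetaMap_mem Γ S T z hS hR hzc hzΓ hz2 p))
    (LinearMap.snd ℂ _ _ ∘ₗ thetaMap Γ S (S * T) T)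

lemma thetaMapZ_injective (S T z : G) (hS : S * S = z) (hR : (S * T) * (S * T) * (S * T) = z)
    (hzc : ∀ g, z * g = g * z) (hzΓ : z ∈ Γ) (hz2 : z * z = 1)
    (hgen : Subgroup.closure {S, T} = (⊤ : Subgroup G)) :
    Function.Injective (thetaMapZ Γ S T z hS hR hzc hzΓ hz2) := by
  intro p q hpq
  apply thetaMap_injective Γ S T hgen
  have h1 := congrArg (fun w => (w.1 : (G ⧸ Γ → ℂ) × (G ⧸ Γ → ℂ))) hpq
  have h2 := congrArg (fun w => w.2) hpq
  exact Prod.ext h1 h2

/-- The abstract bound. -/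
theorem absPar_bound (S T z : G) (hS : S * S = z) (hR : (S * T) * (S * T) * (S * T) = z)
    (hzc : ∀ g, z * g = g * z) (hzΓ : z ∈ Γ) (hz2 : z * z = 1)
    (hgen : Subgroup.closure {S, T} = (⊤ : Subgroup G))
    (hL4 : Nat.card (OrbT T (G ⧸ Γ))
      ≤ finrank ℂ (LinearMap.range (psiMap (X := G ⧸ Γ) S (S * T) T)) + 1) :
    FiniteDimensional ℂ (absPar Γ T) ∧
      6 * finrank ℂ (absPar Γ T) + 3 * Fintype.card {x : G ⧸ Γ // S • x = x}
        + 4 * Fintype.card {x : G ⧸ Γ // (S * T) • x = x} + 6 * Nat.card (OrbT T (G ⧸ Γ))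
        ≤ 12 + Fintype.card (G ⧸ Γ) := by
  have hinj := thetaMapZ_injective Γ S T z hS hR hzc hzΓ hz2 hgen
  have hfd : FiniteDimensional ℂ (absPar Γ T × (G ⧸ Γ → ℂ)) :=
    FiniteDimensional.of_injective _ hinj
  have hfd1 : FiniteDimensional ℂ (absPar Γ T) := by
    refine FiniteDimensional.of_injective (LinearMap.inl ℂ (absPar Γ T) (G ⧸ Γ → ℂ)) ?_
    exact LinearMap.inl_injective
  refine ⟨hfd1, ?_⟩
  have h1 := LinearMap.finrank_le_finrank_of_injective hinj
  rw [Module.finrank_prod, Module.finrank_prod, Module.finrank_fintype_fun_eq_card,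
    Module.finrank_self] at h1
  have hSx : ∀ x : G ⧸ Γ, S • S • x = x := by
    intro x
    obtain ⟨g, rfl⟩ := QuotientGroup.mk_surjective x
    rw [smul_smul, hS]
    show ((z * g : G) : G ⧸ Γ) = g
    rw [hzc, QuotientGroup.eq]
    simpa using hzΓ
  have hRx : ∀ x : G ⧸ Γ, (S * T) • (S * T) • (S * T) • x = x := by
    intro x
    obtain ⟨g, rfl⟩ := QuotientGroup.mk_surjective x
    rw [smul_smul, smul_smul, hR]
    show ((z * g : G) : G ⧸ Γ) = g
    rw [hzc, QuotientGroup.eq]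
    simpa using hzΓ
  have hA := finrank_spaceA_le (X := G ⧸ Γ) S hSx
  have hB := finrank_spaceB_le (X := G ⧸ Γ) (S * T) hRx
  have hZ := finrank_spaceZ_le (X := G ⧸ Γ) S (S * T) T
  omega

end AbsBound

end Fermat.Agent.S21
end
end MergeWrap_S21_GroupBound

section MergeWrap_S21_GroupRank -- from S21/GroupRank.lean

/-!
S21 (D1), sub-lemma L4: the orbit-sum constraint map has rank at least `#orbits - 1`.
-/

set_option autoImplicit false
set_option linter.unusedSectionVars false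

namespace Fermat.Agent.S21

open Module

variable {G : Type*} [Group G] {X : Type} [Fintype X] [DecidableEq X] [MulAction G X]

open Classical in
/-- `orbSum T t = ∑ x, t x • e_{[x]}`. -/
lemma orbSum_eq_sum_single (T : G) (t : X → ℂ) :
    orbSum T t = ∑ x, t x • (Pi.single (orbMk T x) (1 : ℂ) : OrbT T X → ℂ) := by
  funext ω
  rw [orbSum_apply, Finset.sum_apply]
  refine Finset.sum_congr rfl fun x _ => ?_
  by_cases h : orbMk T x = ω
  · subst h; simp
  · simp [h, Ne.symm h]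

open Classical in
/-- evaluation of a functional on an orbit sum. -/
lemma dual_orbSum (T : G) (f : Module.Dual ℂ (OrbT T X → ℂ)) (t : X → ℂ) :
    f (orbSum T t) = ∑ x, t x * f (Pi.single (orbMk T x) (1 : ℂ)) := by
  rw [orbSum_eq_sum_single, map_sum]
  refine Finset.sum_congr rfl fun x _ => ?_
  rw [map_smul, smul_eq_mul]

/-- `g - g ∘ S` lies in `spaceA S`. -/
lemma sub_pullL_mem_spaceA (S : G) (hS : ∀ x : X, S • S • x = x) (g : X → ℂ) :
    g - pullL S g ∈ spaceA (X := X) S := by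
  rw [mem_spaceA]
  intro x
  simp only [Pi.sub_apply, pullL_apply, hS]
  ring

theorem card_orbT_le (S R T : G) [MulAction.IsPretransitive G X]
    (hgen : Subgroup.closure {S, T} = (⊤ : Subgroup G)) (hRST : R = S * T)
    (hS : ∀ x : X, S • S • x = x) (hR : ∀ x : X, R • R • R • x = x) :
    Nat.card (OrbT T X) ≤ finrank ℂ (LinearMap.range (psiMap (X := X) S R T)) + 1 := by
  classical
  haveI : Finite (OrbT T X) := Quotient.finite _
  letI : Fintype (OrbT T X) := Fintype.ofFinite _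
  set W := LinearMap.range (psiMap (X := X) S R T) with hW
  have hdual := Subspace.finrank_add_finrank_dualAnnihilator_eq W
  have hcard : finrank ℂ (OrbT T X → ℂ) = Nat.card (OrbT T X) := by
    rw [Module.finrank_fintype_fun_eq_card, Nat.card_eq_fintype_card]
  rw [hcard] at hdual
  suffices h : finrank ℂ W.dualAnnihilator ≤ 1 by omega
  -- empty case
  rcases isEmpty_or_nonempty X with hX | ⟨⟨x₀⟩⟩
  · have : IsEmpty (OrbT T X) := ⟨fun ω => by
      obtain ⟨x, -⟩ := orbMk_surjective T ω; exact hX.elim x⟩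
    have : Nat.card (OrbT T X) = 0 := Nat.card_of_isEmpty
    omega
  -- key: for `f` in the annihilator, `ĉ x = f e_{[x]}` is constant
  have key : ∀ f ∈ W.dualAnnihilator, ∀ x y : X,
      f (Pi.single (orbMk T x) (1 : ℂ)) = f (Pi.single (orbMk T y) (1 : ℂ)) := by
    intro f hf
    rw [Submodule.mem_dualAnnihilator] at hf
    set c : X → ℂ := fun x => f (Pi.single (orbMk T x) (1 : ℂ)) with hc
    have hcT : ∀ x, c (T • x) = c x := fun x => by simp only [hc, orbMk_smul]
    have hcS : ∀ y, c (S • y) = c y := by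
      intro y
      -- test vector `a = u - u ∘ S` with `u = δ_y`
      set u : X → ℂ := Pi.single y 1 with hu
      have ha := sub_pullL_mem_spaceA S hS u
      have h0 := hf (psiMap S R T (⟨u - pullL S u, ha⟩, 0)) ⟨_, rfl⟩
      rw [psiMap_apply, dual_orbSum] at h0
      have h0' : ∑ x, (u (T • x) - u (S • T • x)) * c (T • x) = 0 := by
        have e : ∀ x, (((0 : spaceB (X := X) R) : X → ℂ) -
            pullL T ((⟨u - pullL S u, ha⟩ : spaceA (X := X) S) : X → ℂ)) x *
              f (Pi.single (orbMk T x) (1 : ℂ)) = -((u (T • x) - u (S • T • x)) * c (T • x)) := by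
          intro x
          rw [hcT]
          simp only [Submodule.coe_zero, Pi.sub_apply, Pi.zero_apply, pullL_apply, hc]
          ring
        simp_rw [e] at h0
        rw [Finset.sum_neg_distrib, neg_eq_zero] at h0
        exact h0
      -- reindex along `T`
      have h1 : ∑ x, (u (T • x) - u (S • T • x)) * c (T • x)
          = ∑ x, (u x - u (S • x)) * c x :=
        Equiv.sum_comp (MulAction.toPerm T) (fun x => (u x - u (S • x)) * c x)
      rw [h1] at h0'
      have h2 : ∑ x, (u x - u (S • x)) * c x = c y - c (S • y) := by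
        simp only [sub_mul, Finset.sum_sub_distrib]
        congr 1
        · simp [hu, Pi.single_apply]
        · have h3 : ∑ x, u (S • x) * c x = ∑ x, u (S • S • x) * c (S • x) :=
            (Equiv.sum_comp (MulAction.toPerm S) (fun x => u (S • x) * c x)).symm
          rw [h3]
          simp only [hS]
          simp [hu, Pi.single_apply]
      rw [h2] at h0'
      exact (sub_eq_zero.mp h0').symm
    -- invariance under the whole group
    let H : Subgroup G :=
      { carrier := {g | ∀ x, c (g • x) = c x}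
        one_mem' := fun x => by simp
        mul_mem' := fun {a b} ha hb x => by rw [mul_smul, ha, hb]
        inv_mem' := fun {a} ha x => by
          have := ha (a⁻¹ • x)
          rw [smul_inv_smul] at this
          exact this.symm }
    have hH : H = ⊤ := by
      rw [eq_top_iff, ← hgen, Subgroup.closure_le]
      rintro g (rfl | rfl)
      · exact hcS
      · exact hcT
    intro x y
    obtain ⟨g, rfl⟩ := MulAction.exists_smul_eq G y x
    have : g ∈ H := hH ▸ Subgroup.mem_top g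
    exact this y
  -- injective map to `ℂ`
  let Φ : W.dualAnnihilator →ₗ[ℂ] ℂ :=
    (LinearMap.applyₗ (Pi.single (orbMk T x₀) (1 : ℂ) : OrbT T X → ℂ)) ∘ₗ
      W.dualAnnihilator.subtype
  have hΦ : Function.Injective Φ := by
    rw [← LinearMap.ker_eq_bot, LinearMap.ker_eq_bot']
    rintro ⟨f, hf⟩ h0
    have h0' : f (Pi.single (orbMk T x₀) (1 : ℂ)) = 0 := h0
    apply Subtype.ext
    show f = 0
    refine LinearMap.pi_ext' fun ω => ?_
    obtain ⟨x, rfl⟩ := orbMk_surjective T ω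
    refine LinearMap.ext_ring ?_
    simp only [LinearMap.coe_comp, LinearMap.coe_single, Function.comp_apply,
      LinearMap.zero_apply]
    rw [key f hf x x₀, h0']
  have := LinearMap.finrank_le_finrank_of_injective hΦ
  simpa using this

end Fermat.Agent.S21
end MergeWrap_S21_GroupRank

section MergeWrap_S21_GroupSL2 -- from S21/GroupSL2.lean

set_option autoImplicit false
set_option linter.unusedSectionVars false

noncomputable section

namespace Fermat.Agent.S21

open Module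
open scoped MatrixGroups

section SL2

lemma trace_conj_T_pow (g : SL(2, ℤ)) (m : ℕ) :
    ((g⁻¹ * ModularGroup.T ^ m * g : SL(2, ℤ)) : Matrix (Fin 2) (Fin 2) ℤ).trace = 2 := by
  rw [Matrix.SpecialLinearGroup.coe_mul, Matrix.trace_mul_comm,
    ← Matrix.SpecialLinearGroup.coe_mul, ← mul_assoc, mul_inv_cancel, one_mul,
    ← zpow_natCast, ModularGroup.coe_T_zpow, Matrix.trace_fin_two_of]
  norm_num

lemma parabolicHoms_le_absPar (Γ : Subgroup SL(2, ℤ)) :
    ModularCurve.Period.parabolicHoms ℂ Γ ℂ ≤ absPar Γ ModularGroup.T := by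
  intro φ hφ g m h
  apply hφ ⟨_, h⟩
  rw [trace_conj_T_pow]
  norm_num

lemma sl2_S_mul_S : (ModularGroup.S : SL(2, ℤ)) * ModularGroup.S = -1 := by
  apply Subtype.ext
  simp only [Matrix.SpecialLinearGroup.coe_mul, ModularGroup.coe_S,
    Matrix.SpecialLinearGroup.coe_neg]
  ext i j
  fin_cases i <;> fin_cases j <;> simp [Matrix.mul_apply, Fin.sum_univ_two]

lemma sl2_ST_cube :
    ((ModularGroup.S : SL(2, ℤ)) * ModularGroup.T) * (ModularGroup.S * ModularGroup.T)
      * (ModularGroup.S * ModularGroup.T) = -1 := by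
  apply Subtype.ext
  simp only [Matrix.SpecialLinearGroup.coe_mul, ModularGroup.coe_S, ModularGroup.coe_T,
    Matrix.SpecialLinearGroup.coe_neg]
  ext i j
  fin_cases i <;> fin_cases j <;> simp [Matrix.mul_apply, Fin.sum_univ_two]

lemma sl2_neg_one_central (g : SL(2, ℤ)) : (-1 : SL(2, ℤ)) * g = g * (-1) := by
  ext i j
  simp

lemma sl2_neg_one_sq : (-1 : SL(2, ℤ)) * (-1) = 1 := by
  ext i j
  simp

/-- The bound for subgroups of `SL(2, ℤ)` containing `-1`. -/
theorem parabolicHoms_bound (Γ : Subgroup SL(2, ℤ)) [Γ.FiniteIndex] (hneg : (-1 : SL(2, ℤ)) ∈ Γ)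
    [Fintype (SL(2, ℤ) ⧸ Γ)] [DecidableEq (SL(2, ℤ) ⧸ Γ)] :
    FiniteDimensional ℂ (ModularCurve.Period.parabolicHoms ℂ Γ ℂ) ∧
      6 * finrank ℂ (ModularCurve.Period.parabolicHoms ℂ Γ ℂ)
        + 3 * Nat.card (MulAction.fixedBy (SL(2, ℤ) ⧸ Γ) ModularGroup.S)
        + 4 * Nat.card (MulAction.fixedBy (SL(2, ℤ) ⧸ Γ) (ModularGroup.S * ModularGroup.T))
        + 6 * Nat.card (MulAction.orbitRel.Quotient (Subgroup.zpowers ModularGroup.T)
            (SL(2, ℤ) ⧸ Γ))
        ≤ 12 + Nat.card (SL(2, ℤ) ⧸ Γ) := by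
  have hSx : ∀ x : SL(2, ℤ) ⧸ Γ, ModularGroup.S • ModularGroup.S • x = x := by
    intro x
    obtain ⟨g, rfl⟩ := QuotientGroup.mk_surjective x
    rw [smul_smul, sl2_S_mul_S]
    show (((-1 : SL(2, ℤ)) * g : SL(2, ℤ)) : SL(2, ℤ) ⧸ Γ) = g
    rw [sl2_neg_one_central, QuotientGroup.eq]
    simpa using hneg
  have hRx : ∀ x : SL(2, ℤ) ⧸ Γ, (ModularGroup.S * ModularGroup.T) •
      (ModularGroup.S * ModularGroup.T) • (ModularGroup.S * ModularGroup.T) • x = x := by
    intro x
    obtain ⟨g, rfl⟩ := QuotientGroup.mk_surjective x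
    rw [smul_smul, smul_smul, sl2_ST_cube]
    show (((-1 : SL(2, ℤ)) * g : SL(2, ℤ)) : SL(2, ℤ) ⧸ Γ) = g
    rw [sl2_neg_one_central, QuotientGroup.eq]
    simpa using hneg
  have hL4 := card_orbT_le (X := SL(2, ℤ) ⧸ Γ) ModularGroup.S
    (ModularGroup.S * ModularGroup.T) ModularGroup.T
    SpecialLinearGroup.SL2Z_generators rfl hSx hRx
  obtain ⟨hfd, hb⟩ := absPar_bound Γ ModularGroup.S ModularGroup.T (-1) sl2_S_mul_S sl2_ST_cube
    sl2_neg_one_central hneg sl2_neg_one_sq SpecialLinearGroup.SL2Z_generators hL4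
  have hle := parabolicHoms_le_absPar Γ
  have hfd' : FiniteDimensional ℂ (ModularCurve.Period.parabolicHoms ℂ Γ ℂ) :=
    FiniteDimensional.of_injective (Submodule.inclusion hle) (Submodule.inclusion_injective hle)
  refine ⟨hfd', ?_⟩
  have h1 : finrank ℂ (ModularCurve.Period.parabolicHoms ℂ Γ ℂ)
      ≤ finrank ℂ (absPar Γ ModularGroup.T) := Submodule.finrank_mono hle
  have h2 : Nat.card (MulAction.fixedBy (SL(2, ℤ) ⧸ Γ) ModularGroup.S)
      = Fintype.card {x : SL(2, ℤ) ⧸ Γ // ModularGroup.S • x = x} := by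
    rw [← Nat.card_eq_fintype_card]
    rfl
  have h3 : Nat.card (MulAction.fixedBy (SL(2, ℤ) ⧸ Γ) (ModularGroup.S * ModularGroup.T))
      = Fintype.card {x : SL(2, ℤ) ⧸ Γ // (ModularGroup.S * ModularGroup.T) • x = x} := by
    rw [← Nat.card_eq_fintype_card]
    rfl
  have h4 : Nat.card (SL(2, ℤ) ⧸ Γ) = Fintype.card (SL(2, ℤ) ⧸ Γ) := Nat.card_eq_fintype_card
  have h5 : Nat.card (MulAction.orbitRel.Quotient (Subgroup.zpowers ModularGroup.T)
      (SL(2, ℤ) ⧸ Γ)) = Nat.card (OrbT ModularGroup.T (SL(2, ℤ) ⧸ Γ)) := rfl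
  omega

end SL2

end Fermat.Agent.S21
end
end MergeWrap_S21_GroupSL2

section MergeWrap_S21_GroupFinal -- from S21/GroupFinal.lean

set_option autoImplicit false

noncomputable section

namespace Fermat.Agent.S21

open Module CongruenceSubgroup
open scoped MatrixGroups

lemma neg_one_mem_Gamma0 (N : ℕ) : (-1 : SL(2, ℤ)) ∈ Gamma0 N := by
  rw [Gamma0_mem]
  simp

/-- (D1) the parabolic homomorphisms of `Γ₀(N)` form a finite-dimensional space. -/
theorem finiteDimensional_parabolicHoms (N : ℕ) [NeZero N] :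
    FiniteDimensional ℂ (ModularCurve.Period.parabolicHoms ℂ (Gamma0 N) ℂ) := by
  classical
  letI : Fintype (SL(2, ℤ) ⧸ Gamma0 N) := Fintype.ofFinite _
  exact (parabolicHoms_bound (Gamma0 N) (neg_one_mem_Gamma0 N)).1

/-- (D1) the combinatorial form of the bound. -/
theorem finrank_parabolicHoms_counts (N : ℕ) [NeZero N] :
    6 * finrank ℂ (ModularCurve.Period.parabolicHoms ℂ (Gamma0 N) ℂ)
        + 3 * ModularCurve.nuTwo N + 4 * ModularCurve.nuThree N + 6 * ModularCurve.cuspCount N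
        ≤ 12 + ModularCurve.dedekindPsi N := by
  classical
  letI : Fintype (SL(2, ℤ) ⧸ Gamma0 N) := Fintype.ofFinite _
  have h := (parabolicHoms_bound (Gamma0 N) (neg_one_mem_Gamma0 N)).2
  have h1 := Fermat.Agent.S20.card_cosetX N
  have h2 := Fermat.Agent.S20.card_fixedBy_S N
  have h3 := Fermat.Agent.S20.card_fixedBy_ST N
  have h4 := Fermat.Agent.S20.card_orbits_T N
  simp only [Fermat.Agent.S20.CosetX] at h1 h2 h3 h4
  rw [h1, h2, h3, h4] at h
  exact h

/-- (D1) `dim Hom_par(Γ₀(N), ℂ) ≤ 2 g(N)`. -/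
theorem finrank_parabolicHoms_le (N : ℕ) [NeZero N] :
    (finrank ℂ (ModularCurve.Period.parabolicHoms ℂ (Gamma0 N) ℂ) : ℚ)
      ≤ 2 * ModularCurve.genusFormula N := by
  have h := finrank_parabolicHoms_counts N
  have h' : (6 * finrank ℂ (ModularCurve.Period.parabolicHoms ℂ (Gamma0 N) ℂ)
        + 3 * ModularCurve.nuTwo N + 4 * ModularCurve.nuThree N + 6 * ModularCurve.cuspCount N : ℚ)
        ≤ 12 + ModularCurve.dedekindPsi N := by
    exact_mod_cast h
  unfold ModularCurve.genusFormula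
  linarith

end Fermat.Agent.S21
end
end MergeWrap_S21_GroupFinal
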