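import Mathlib.Analysis.Calculus.Deriv.Star
import Fermat.Agent.MU.S21.Parabolic

section MergeWrap_S21_Injective -- from S21/Injective.lean

/-!
# S21 (C): injectivity of `periodHomPair`, from the statement `ReInvariantConst N`
(= `const_of_re_invariant` of `S21/ReInvariant.lean` specialised to `Γ₀(N)`), taken as a hypothesis.
-/

set_option autoImplicit false

open Complex Filter Function Metric Set CongruenceSubgroup Matrix.SpecialLinearGroup
open UpperHalfPlane hiding I
open scoped Real Topology Manifold MatrixGroups ModularForm Pointwise ComplexConjugate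
open ModularCurve ModularCurve.Period

namespace Fermat.Agent.S21

/-- `Γ(N) ≤ Γ₀(N)`. -/
theorem Gamma_le_Gamma0 (N : ℕ) : Gamma N ≤ Gamma0 N := by
  intro γ hγ
  rw [Gamma_mem] at hγ
  rw [Gamma0_mem]
  exact hγ.2.2.1

/-- A function on `ℍ` having a derivative everywhere is `MDiff`. -/
theorem mdiff_of_hasDerivAt {F f : ℍ → ℂ}
    (hF : ∀ τ : ℍ, HasDerivAt (F ∘ ofComplex) (f τ) τ) : MDiff F := by
  rw [UpperHalfPlane.mdifferentiable_iff]
  intro z hz
  exact (hF ⟨z, hz⟩).differentiableAt.differentiableWithinAt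

/-- The statement of Lemma C' for `Γ₀(N)`: a holomorphic function on `ℍ` with `Γ₀(N)`-invariant
real part and limits at all cusps is constant. -/
def ReInvariantConst (N : ℕ) : Prop :=
  ∀ {H : ℍ → ℂ}, MDiff H → (∀ γ ∈ Gamma0 N, ∀ z : ℍ, (H (γ • z)).re = (H z).re) →
    (∀ δ : SL(2, ℤ), ∃ L : ℂ, Tendsto (fun w : ℍ => H (δ • w)) atImInfty (𝓝 L)) →
    ∀ z w : ℍ, H z = H w

/-- **Lemma X.** Two holomorphic functions on `ℍ` with limits at all cusps whose "periods"
along `Γ₀(N)` are minus conjugate to each other are constant. -/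
theorem const_of_conj_periods (N : ℕ) (hC : ReInvariantConst N)
    {U V : ℍ → ℂ} (hU : MDiff U) (hV : MDiff V)
    (hUc : ∀ δ : SL(2, ℤ), ∃ L : ℂ, Tendsto (fun w : ℍ => U (δ • w)) atImInfty (𝓝 L))
    (hVc : ∀ δ : SL(2, ℤ), ∃ L : ℂ, Tendsto (fun w : ℍ => V (δ • w)) atImInfty (𝓝 L))
    (hper : ∀ γ ∈ Gamma0 N, ∀ z : ℍ,
      (U (γ • z) - U z) + conj (V (γ • z) - V z) = 0) :
    ∀ z w : ℍ, U z = U w := by
  have h1 : ∀ z w : ℍ, U z + V z = U w + V w := by
    refine hC (H := fun z => U z + V z) (hU.add hV) ?_ ?_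
    · intro γ hγ z
      have := congrArg Complex.re (hper γ hγ z)
      simp only [add_re, sub_re, conj_re, zero_re] at this ⊢
      linarith
    · intro δ
      obtain ⟨L, hL⟩ := hUc δ
      obtain ⟨M, hM⟩ := hVc δ
      exact ⟨L + M, hL.add hM⟩
  have h2 : ∀ z w : ℍ, (-Complex.I) * (U z - V z) = (-Complex.I) * (U w - V w) := by
    refine hC (H := fun z => (-Complex.I) * (U z - V z)) ?_ ?_ ?_
    · exact (mdifferentiable_const (c := -Complex.I)).mul (hU.sub hV)
    · intro γ hγ z
      have := congrArg Complex.im (hper γ hγ z)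
      simp only [add_im, sub_im, conj_im, zero_im] at this
      simp only [neg_mul, neg_re, mul_re, Complex.I_re, Complex.I_im, sub_re, sub_im, zero_mul, one_mul]
      linarith
    · intro δ
      obtain ⟨L, hL⟩ := hUc δ
      obtain ⟨M, hM⟩ := hVc δ
      exact ⟨(-Complex.I) * (L - M), (hL.sub hM).const_mul _⟩
  intro z w
  have e1 := h1 z w
  have e2 := h2 z w
  have e3 : U z - V z = U w - V w := by
    have hI : (-Complex.I) ≠ 0 := neg_ne_zero.mpr Complex.I_ne_zero
    exact mul_left_cancel₀ hI e2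
  linear_combination (1 / 2 : ℂ) * e1 + (1 / 2 : ℂ) * e3

/-- The conjugate function `F^σ(z) = conj (F (-conj z))`. -/
noncomputable def sigmaConj (F : ℍ → ℂ) : ℍ → ℂ := fun z => conj (F (J • z))

theorem sigmaConj_apply (F : ℍ → ℂ) (z : ℍ) : sigmaConj F z = conj (F (J • z)) := rfl

/-- `J • ofComplex z = ofComplex (-conj z)` on the upper half plane. -/
theorem J_smul_ofComplex {z : ℂ} (hz : 0 < z.im) :
    J • ofComplex z = ofComplex (-conj z) := by
  apply UpperHalfPlane.ext
  have h2 : 0 < (-conj z).im := by simpa using hz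
  rw [coe_J_smul, ofComplex_apply_of_im_pos hz, ofComplex_apply_of_im_pos h2]

/-- `F^σ` is a primitive of `-conj ∘ f ∘ σ`. -/
theorem hasDerivAt_sigmaConj {F f : ℍ → ℂ}
    (hF : ∀ τ : ℍ, HasDerivAt (F ∘ ofComplex) (f τ) τ) (τ : ℍ) :
    HasDerivAt (sigmaConj F ∘ ofComplex) (-conj (f (J • τ))) τ := by
  -- `g z = F (ofComplex (-z))`
  have h1 : HasDerivAt (fun z : ℂ => (F ∘ ofComplex) (-z)) (-(f (J • τ))) (conj (τ : ℂ)) := by
    have h0 : HasDerivAt (F ∘ ofComplex) (f (J • τ)) (-(conj (τ : ℂ))) := by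
      have := hF (J • τ)
      rwa [coe_J_smul] at this
    have h4 := h0.comp (conj (τ : ℂ)) (hasDerivAt_neg (conj (τ : ℂ)))
    rw [mul_neg_one] at h4
    exact h4
  have h2 := h1.conj_conj
  rw [Complex.conj_conj] at h2
  have h3 : conj (-(f (J • τ))) = -conj (f (J • τ)) := map_neg _ _
  rw [h3] at h2
  refine h2.congr_of_eventuallyEq ?_
  have hopen : {z : ℂ | 0 < z.im} ∈ 𝓝 (τ : ℂ) :=
    (isOpen_lt continuous_const Complex.continuous_im).mem_nhds τ.2
  filter_upwards [hopen] with z hz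
  simp only [Function.comp, sigmaConj_apply, J_smul_ofComplex hz]

/-- The key identity `σ(γ z) = (jγj)(σ z)`. -/
theorem J_smul_smul (γ : SL(2, ℤ)) (z : ℍ) : J • (γ • z) = (jConjSL γ) • (J • z) := by
  rw [ModularGroup.sl_moeb, ModularGroup.sl_moeb, ← mul_smul, ← mul_smul]
  congr 1
  apply Units.ext
  ext i j
  fin_cases i <;> fin_cases j <;>
    simp [J, Matrix.mul_apply, Fin.sum_univ_two, jConjMat]

/-- `σ` preserves `atImInfty`. -/
theorem tendsto_J_smul_atImInfty : Tendsto (fun w : ℍ => J • w) atImInfty atImInfty := by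
  rw [atImInfty, tendsto_comap_iff]
  have : (UpperHalfPlane.im ∘ fun w : ℍ => J • w) = UpperHalfPlane.im := by
    funext w
    show (↑(J • w) : ℂ).im = (w : ℂ).im
    rw [coe_J_smul]
    simp
  rw [this]
  exact tendsto_comap

/-- Periods of `F^σ`. -/
theorem sigmaConj_sub {N : ℕ} {f : CuspForm (Gamma0 N) 2} {F : ℍ → ℂ}
    (hF : HasEquivariantPrimitive N f F) (γ : Gamma0 N) (z : ℍ) :
    sigmaConj F ((γ : SL(2, ℤ)) • z) - sigmaConj F z =
      conj (hF.2.2.1.period (jConjGamma0 N γ)) := by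
  simp only [sigmaConj_apply, J_smul_smul]
  rw [← map_sub]
  congr 1
  exact hF.2.2.1.sub_eq_period (jConjGamma0 N γ) (J • z)

/-- Cusp limits of `F^σ`. -/
theorem sigmaConj_cusp {N : ℕ} {f : CuspForm (Gamma0 N) 2} {F : ℍ → ℂ}
    (hF : HasEquivariantPrimitive N f F) (δ : SL(2, ℤ)) :
    ∃ L : ℂ, Tendsto (fun w : ℍ => sigmaConj F (δ • w)) atImInfty (𝓝 L) := by
  obtain ⟨L, hL⟩ := hF.2.2.2 (jConjSL δ)
  refine ⟨conj L, ?_⟩
  have h1 : (fun w : ℍ => sigmaConj F (δ • w)) =
      fun w => conj (F (jConjSL δ • (J • w))) := by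
    funext w
    simp only [sigmaConj_apply, J_smul_smul]
  rw [h1]
  exact (Complex.continuous_conj.tendsto L).comp (hL.comp tendsto_J_smul_atImInfty)

/-- If an equivariant primitive is constant, the cusp form vanishes. -/
theorem eq_zero_of_const {N : ℕ} {f : CuspForm (Gamma0 N) 2} {F : ℍ → ℂ}
    (hF : HasEquivariantPrimitive N f F) (hc : ∀ z w : ℍ, F z = F w) : f = 0 := by
  ext τ
  have h1 : HasDerivAt (F ∘ ofComplex) 0 τ := by
    have h2 : HasDerivAt (fun _ : ℂ => F τ) 0 (τ : ℂ) := hasDerivAt_const _ _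
    refine h2.congr_of_eventuallyEq ?_
    filter_upwards with z
    exact hc _ _
  exact (hF.1 τ).unique h1

/-- Common core of `thm_plus` and `thm_minus`. -/
theorem eq_zero_of_period_relation (N : ℕ) (hC : ReInvariantConst N)
    {f : CuspForm (Gamma0 N) 2} {F : ℍ → ℂ}
    (hF : HasEquivariantPrimitive N f F) (ε : ℂ) (hε : conj ε = ε)
    (h : ∀ γ : Gamma0 N, hF.2.2.1.period γ + ε * hF.2.2.1.period (jConjGamma0 N γ) = 0) :
    f = 0 := by
  refine eq_zero_of_const hF ?_
  refine const_of_conj_periods N hC (U := F) (V := fun z => ε * sigmaConj F z)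
    (mdiff_of_hasDerivAt hF.1) ?_ hF.2.2.2 ?_ ?_
  · exact mdiff_of_hasDerivAt (F := fun z => ε * sigmaConj F z)
      (f := fun τ => ε * (-conj (f (J • τ)))) fun τ => (hasDerivAt_sigmaConj hF.1 τ).const_mul ε
  · intro δ
    obtain ⟨L, hL⟩ := sigmaConj_cusp hF δ
    exact ⟨ε * L, hL.const_mul ε⟩
  · intro γ hγ z
    have e1 := hF.2.2.1.sub_eq_period ⟨γ, hγ⟩ z
    have e2 := sigmaConj_sub hF ⟨γ, hγ⟩ z
    simp only at e1 e2
    rw [e1, ← mul_sub, e2, map_mul, Complex.conj_conj, hε]
    exact h ⟨γ, hγ⟩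

/-- `(1 + ι) P(f) = 0 ⟹ f = 0`. -/
theorem thm_plus (N : ℕ) [NeZero N] (hC : ReInvariantConst N) (f : CuspForm (Gamma0 N) 2)
    (h : periodMap N f + charInvolution N ℂ ℂ (periodMap N f) = 0) : f = 0 := by
  obtain ⟨F, hF⟩ := exists_hasEquivariantPrimitive N f
  refine eq_zero_of_period_relation N hC hF 1 (map_one _) fun γ => ?_
  have := DFunLike.congr_fun h (Additive.ofMul γ)
  rw [periodMap_eq_periodHom N f hF] at this
  simpa using this

/-- `(1 - ι) P(f) = 0 ⟹ f = 0`. -/
theorem thm_minus (N : ℕ) [NeZero N] (hC : ReInvariantConst N) (f : CuspForm (Gamma0 N) 2)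
    (h : periodMap N f - charInvolution N ℂ ℂ (periodMap N f) = 0) : f = 0 := by
  obtain ⟨F, hF⟩ := exists_hasEquivariantPrimitive N f
  refine eq_zero_of_period_relation N hC hF (-1) (by simp) fun γ => ?_
  have := DFunLike.congr_fun h (Additive.ofMul γ)
  rw [periodMap_eq_periodHom N f hF] at this
  simpa [sub_eq_add_neg] using this

/-- **(C)** `periodHomPair` is injective. -/
theorem periodHomPair_injective (N : ℕ) [NeZero N] (hC : ReInvariantConst N) :
    Function.Injective (periodHomPair N) := by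
  rw [← LinearMap.ker_eq_bot, LinearMap.ker_eq_bot']
  rintro ⟨f, g⟩ h
  rw [periodHomPair_apply] at h
  set P := periodMap N f with hP
  set Q := periodMap N g with hQ
  set ι := charInvolution N ℂ ℂ with hι
  have hι2 : ∀ ψ, ι (ι ψ) = ψ := charInvolution_charInvolution N ℂ ℂ
  have h' := congrArg ι h
  simp only [map_add, map_sub, map_zero, hι2] at h'
  have hf : P + ι P = 0 := by
    have h2 : (2 : ℂ) • (P + ι P) = 0 := by
      have := congrArg₂ (· + ·) h h'
      simp only [add_zero] at this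
      rw [two_smul]
      rw [← this]
      abel
    exact (smul_eq_zero.mp h2).resolve_left two_ne_zero
  have hg : Q - ι Q = 0 := by
    have h2 : (2 : ℂ) • (Q - ι Q) = 0 := by
      have := congrArg₂ (· - ·) h h'
      simp only [sub_zero] at this
      rw [two_smul]
      rw [← this]
      abel
    exact (smul_eq_zero.mp h2).resolve_left two_ne_zero
  rw [thm_plus N hC f hf, thm_minus N hC g hg]
  rfl

end Fermat.Agent.S21
end MergeWrap_S21_Injective
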