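import Mathlib.Analysis.Complex.AbsMax
import Mathlib.Analysis.Calculus.MeanValue
import Mathlib.Analysis.SpecialFunctions.ExpDeriv
import Mathlib.NumberTheory.ModularForms.QExpansion
import Mathlib.NumberTheory.Modular
import Mathlib.NumberTheory.ModularForms.CongruenceSubgroups

section MergeWrap_S21_MaxRe -- from S21/MaxRe.lean

/-!
# A maximum principle for the real part of a holomorphic function
-/

set_option autoImplicit false

open Filter Topology

namespace Fermat.Agent.S21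

/-- **Maximum principle for the real part.** If `K` is holomorphic on the open preconnected set
`U` and `re K` attains its maximum over `U` at `c ∈ U`, then `K` is constant on `U`. -/
theorem reInv_eq_of_isMaxOn_re {K : ℂ → ℂ} {U : Set ℂ} (hU : IsOpen U) (hUc : IsPreconnected U)
    (hK : DifferentiableOn ℂ K U) {c : ℂ} (hc : c ∈ U)
    (hmax : ∀ z ∈ U, (K z).re ≤ (K c).re) :
    ∀ z ∈ U, K z = K c := by
  have hexp : DifferentiableOn ℂ (fun z => Complex.exp (K z)) U := hK.cexp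
  have hmax' : IsMaxOn (norm ∘ fun z => Complex.exp (K z)) U c := by
    intro z hz
    simp only [Function.comp, Complex.norm_exp]
    exact Real.exp_le_exp.mpr (hmax z hz)
  have heq := Complex.eqOn_of_isPreconnected_of_isMaxOn_norm hUc hU hexp hc hmax'
  have hderiv : U.EqOn (deriv K) 0 := by
    intro z hz
    have hKz : HasDerivAt K (deriv K z) z := (hK.differentiableAt (hU.mem_nhds hz)).hasDerivAt
    have h1 : HasDerivAt (fun z => Complex.exp (K z)) (Complex.exp (K z) * deriv K z) z :=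
      hKz.cexp
    have h2 : HasDerivAt (fun z => Complex.exp (K z)) 0 z := by
      have : (fun z => Complex.exp (K z)) =ᶠ[𝓝 z] fun _ => Complex.exp (K c) := by
        filter_upwards [hU.mem_nhds hz] with w hw using heq hw
      exact (hasDerivAt_const z _).congr_of_eventuallyEq this
    have h3 := h1.unique h2
    simpa [Complex.exp_ne_zero] using h3
  intro z hz
  exact hU.is_const_of_deriv_eq_zero hUc hK hderiv hz hc

/-- A holomorphic function on an open preconnected set whose real part is constant is constant. -/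
theorem reInv_eq_of_re_eq {K : ℂ → ℂ} {U : Set ℂ} (hU : IsOpen U) (hUc : IsPreconnected U)
    (hK : DifferentiableOn ℂ K U) {c : ℂ} (hc : c ∈ U)
    (hre : ∀ z ∈ U, (K z).re = (K c).re) :
    ∀ z ∈ U, K z = K c :=
  reInv_eq_of_isMaxOn_re hU hUc hK hc fun z hz => (hre z hz).le

end Fermat.Agent.S21
end MergeWrap_S21_MaxRe

section MergeWrap_S21_ReInvariant -- from S21/ReInvariant.lean

/-!
# Holomorphic functions on `ℍ` with `Γ`-invariant real part and limits at the cusps are constant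
-/

set_option autoImplicit false

open Complex Filter Function Metric Set
open UpperHalfPlane hiding I
open scoped Real Topology Manifold MatrixGroups

namespace Fermat.Agent.S21

/-- Möbius transformations by elements of `SL(2, ℤ)` are holomorphic. -/
theorem reInv_mdifferentiable_SL_smul (δ : SL(2, ℤ)) : MDiff (fun τ : ℍ => δ • τ) :=
  UpperHalfPlane.mdifferentiable_smul (g := (Matrix.SpecialLinearGroup.mapGL ℝ δ)) (by simp)

theorem reInv_mdifferentiable_comp_SL_smul {H : ℍ → ℂ} (hH : MDiff H) (δ : SL(2, ℤ)) :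
    MDiff (fun τ : ℍ => H (δ • τ)) :=
  hH.comp (reInv_mdifferentiable_SL_smul δ)

/-- A holomorphic function on `ℍ` with constant real part is constant. -/
theorem reInv_eq_of_re_eq_uhp {D : ℍ → ℂ} (hD : MDiff D) (hre : ∀ z w : ℍ, (D z).re = (D w).re) :
    ∀ z w : ℍ, D z = D w := by
  rw [UpperHalfPlane.mdifferentiable_iff] at hD
  have hconn : IsPreconnected {z : ℂ | 0 < z.im} :=
    (Complex.isConnected_of_upperHalfPlane (r := 0) subset_rfl (by grind)).isPreconnected
  have hopen : IsOpen {z : ℂ | 0 < z.im} := isOpen_lt continuous_const Complex.continuous_im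
  intro z w
  have key := reInv_eq_of_re_eq hopen hconn hD (c := (w : ℂ)) w.2 (fun u hu => by
    simp only [Function.comp, ofComplex_apply_of_im_pos hu, ofComplex_apply]
    exact hre _ _) (z : ℂ) z.2
  simpa [Function.comp, ofComplex_apply] using key

/-- maximum principle for the real part on `ℍ`. -/
theorem reInv_eq_of_isMaxOn_re_uhp {D : ℍ → ℂ} (hD : MDiff D) (c : ℍ)
    (hre : ∀ z : ℍ, (D z).re ≤ (D c).re) :
    ∀ z : ℍ, D z = D c := by
  rw [UpperHalfPlane.mdifferentiable_iff] at hD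
  have hconn : IsPreconnected {z : ℂ | 0 < z.im} :=
    (Complex.isConnected_of_upperHalfPlane (r := 0) subset_rfl (by grind)).isPreconnected
  have hopen : IsOpen {z : ℂ | 0 < z.im} := isOpen_lt continuous_const Complex.continuous_im
  intro z
  have key := reInv_eq_of_isMaxOn_re hopen hconn hD (c := (c : ℂ)) c.2 (fun u hu => by
    simp only [Function.comp, ofComplex_apply_of_im_pos hu, ofComplex_apply]
    exact hre _) (z : ℂ) z.2
  simpa [Function.comp, ofComplex_apply] using key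

end Fermat.Agent.S21

namespace Fermat.Agent.S21

/-- the conjugate `δ T^N δ⁻¹` lies in `Γ(N)` -/
theorem reInv_conj_T_pow_mem_Gamma (N : ℕ) (δ : SL(2, ℤ)) :
    δ * ModularGroup.T ^ (N : ℤ) * δ⁻¹ ∈ CongruenceSubgroup.Gamma N := by
  have h1 : ModularGroup.T ^ (N : ℤ) ∈ CongruenceSubgroup.Gamma N := by
    simpa using CongruenceSubgroup.ModularGroup_T_pow_mem_Gamma (N : ℤ) (N : ℤ) dvd_rfl
  exact (CongruenceSubgroup.Gamma_normal N).conj_mem _ h1 δ

theorem reInv_tendsto_vadd_atImInfty (x : ℝ) :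
    Tendsto (fun w : ℍ => x +ᵥ w) atImInfty atImInfty := by
  rw [atImInfty, tendsto_comap_iff]
  have : (UpperHalfPlane.im ∘ fun w : ℍ => x +ᵥ w) = UpperHalfPlane.im := by
    funext w
    simp
  rw [this]
  exact tendsto_comap

section main

variable {Γ : Subgroup SL(2, ℤ)} {N : ℕ} {H : ℍ → ℂ}

/-- `H ∘ δ` is `N`-periodic. -/
theorem reInv_translate_vadd_eq (hΓ : CongruenceSubgroup.Gamma N ≤ Γ) (hH : MDiff H)
    (hinv : ∀ γ ∈ Γ, ∀ z : ℍ, (H (γ • z)).re = (H z).re)
    (hcusp : ∀ δ : SL(2, ℤ), ∃ L : ℂ, Tendsto (fun w : ℍ => H (δ • w)) atImInfty (𝓝 L))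
    (δ : SL(2, ℤ)) (w : ℍ) :
    H (δ • ((N : ℝ) +ᵥ w)) = H (δ • w) := by
  set D : ℍ → ℂ := fun w => H (δ • ((N : ℝ) +ᵥ w)) - H (δ • w) with hD
  have hvadd : ∀ w : ℍ, (N : ℝ) +ᵥ w = ModularGroup.T ^ (N : ℤ) • w := by
    intro w
    rw [UpperHalfPlane.modular_T_zpow_smul]
    simp
  have hDdiff : MDiff D := by
    have h1 : MDiff (fun w : ℍ => H ((δ * ModularGroup.T ^ (N : ℤ)) • w)) :=
      reInv_mdifferentiable_comp_SL_smul hH _
    have h2 : MDiff (fun w : ℍ => H (δ • w)) := reInv_mdifferentiable_comp_SL_smul hH _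
    have h3 : D = (fun w : ℍ => H ((δ * ModularGroup.T ^ (N : ℤ)) • w)) - fun w : ℍ => H (δ • w) := by
      funext w
      simp only [hD, Pi.sub_apply, hvadd, mul_smul]
    rw [h3]
    exact h1.sub h2
  have hDre : ∀ w : ℍ, (D w).re = 0 := by
    intro w
    have hmem : δ * ModularGroup.T ^ (N : ℤ) * δ⁻¹ ∈ Γ := hΓ (reInv_conj_T_pow_mem_Gamma N δ)
    have h1 := hinv _ hmem (δ • w)
    have h2 : (δ * ModularGroup.T ^ (N : ℤ) * δ⁻¹) • (δ • w) = δ • ((N : ℝ) +ᵥ w) := by
      rw [hvadd, ← mul_smul, ← mul_smul]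
      congr 1
      group
    rw [h2] at h1
    simp only [hD, Complex.sub_re, h1, sub_self]
  have hDconst : ∀ z w : ℍ, D z = D w :=
    reInv_eq_of_re_eq_uhp hDdiff (fun z w => by rw [hDre, hDre])
  obtain ⟨L, hL⟩ := hcusp δ
  have hlim : Tendsto D atImInfty (𝓝 (L - L)) :=
    (hL.comp (reInv_tendsto_vadd_atImInfty (N : ℝ))).sub hL
  have hconst : Tendsto D atImInfty (𝓝 (D w)) := by
    have : D = fun _ => D w := funext fun z => hDconst z w
    rw [this]
    exact tendsto_const_nhds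
  have h0 : D w = L - L := tendsto_nhds_unique hconst hlim
  rw [sub_self] at h0
  exact sub_eq_zero.mp h0

theorem reInv_periodic_translate (hΓ : CongruenceSubgroup.Gamma N ≤ Γ) (hH : MDiff H)
    (hinv : ∀ γ ∈ Γ, ∀ z : ℍ, (H (γ • z)).re = (H z).re)
    (hcusp : ∀ δ : SL(2, ℤ), ∃ L : ℂ, Tendsto (fun w : ℍ => H (δ • w)) atImInfty (𝓝 L))
    (δ : SL(2, ℤ)) :
    Periodic ((fun w : ℍ => H (δ • w)) ∘ ofComplex) (N : ℝ) := by
  intro w
  by_cases! hw : 0 < im w
  · have hw' : 0 < im (w + (N : ℝ)) := by simp [hw]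
    simp only [comp_apply, ofComplex_apply_of_im_pos hw', ofComplex_apply_of_im_pos hw]
    have := reInv_translate_vadd_eq hΓ hH hinv hcusp δ ⟨w, hw⟩
    convert this using 3
    ext
    simp [add_comm]
  · have hw' : im (w + (N : ℝ)) ≤ 0 := by simpa using hw
    simp only [comp_apply]
    rw [ofComplex_apply_eq_of_im_nonpos hw' hw]


/-- `H ∘ δ` is bounded at `i∞`. -/
theorem reInv_isBoundedAtImInfty_translate
    (hcusp : ∀ δ : SL(2, ℤ), ∃ L : ℂ, Tendsto (fun w : ℍ => H (δ • w)) atImInfty (𝓝 L))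
    (δ : SL(2, ℤ)) : IsBoundedAtImInfty (fun w : ℍ => H (δ • w)) := by
  obtain ⟨L, hL⟩ := hcusp δ
  exact hL.isBigO_one ℝ

/-- points of the fundamental domain have imaginary part at least `1/2`. -/
theorem reInv_half_le_im_of_mem_fd {τ : ℍ} (hτ : τ ∈ ModularGroup.fd) : 1 / 2 ≤ τ.im := by
  obtain ⟨h1, h2⟩ := hτ
  have him : 0 < τ.im := τ.im_pos
  rw [Complex.normSq_apply] at h1
  have h3 : τ.re ^ 2 ≤ 1 / 4 := by
    have := abs_le.mp h2
    nlinarith [this.1, this.2]
  have h4 : (τ : ℂ).re = τ.re := rfl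
  have h5 : (τ : ℂ).im = τ.im := rfl
  rw [h4, h5] at h1
  by_contra hlt
  push Not at hlt
  nlinarith

/-- the `q`-parameter of a point of imaginary part `≥ 1/2` lies in the closed ball of radius
`exp (-π / N)`. -/
theorem reInv_qParam_mem_closedBall {N : ℕ} (hN : 0 < N) {τ : ℍ} (hτ : 1 / 2 ≤ τ.im) :
    Periodic.qParam (N : ℝ) (τ : ℂ) ∈ closedBall (0 : ℂ) (Real.exp (-π / N)) := by
  rw [mem_closedBall_zero_iff, Periodic.norm_qParam, Real.exp_le_exp]
  have hN' : (0 : ℝ) < N := by exact_mod_cast hN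
  have h5 : (τ : ℂ).im = τ.im := rfl
  rw [h5, div_le_div_iff_of_pos_right hN']
  nlinarith [Real.pi_pos]


/-- **Lemma C'.** A holomorphic function on `ℍ` whose real part is invariant under a subgroup
`Γ ⊇ Γ(N)` and which has a limit at every cusp is constant. -/
theorem const_of_re_invariant [Γ.FiniteIndex] [NeZero N]
    (hΓ : CongruenceSubgroup.Gamma N ≤ Γ) (hH : MDiff H)
    (hinv : ∀ γ ∈ Γ, ∀ z : ℍ, (H (γ • z)).re = (H z).re)
    (hcusp : ∀ δ : SL(2, ℤ), ∃ L : ℂ, Tendsto (fun w : ℍ => H (δ • w)) atImInfty (𝓝 L)) :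
    ∀ z w : ℍ, H z = H w := by
  classical
  have hNpos : 0 < N := Nat.pos_of_ne_zero (NeZero.ne N)
  have hNR : (0 : ℝ) < N := by exact_mod_cast hNpos
  set r : ℝ := Real.exp (-π / N) with hr
  have hr1 : r < 1 := by
    rw [hr, ← Real.exp_zero, Real.exp_lt_exp]
    exact div_neg_of_neg_of_pos (neg_lt_zero.mpr Real.pi_pos) hNR
  have hr0 : 0 ≤ r := (Real.exp_pos _).le
  -- the cusp functions
  set K : SL(2, ℤ) → ℂ → ℂ := fun δ => cuspFunction (N : ℝ) (fun w : ℍ => H (δ • w)) with hK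
  have hper : ∀ δ, Periodic ((fun w : ℍ => H (δ • w)) ∘ ofComplex) (N : ℝ) :=
    fun δ => reInv_periodic_translate hΓ hH hinv hcusp δ
  have hKdiff : ∀ δ, DifferentiableOn ℂ (K δ) (ball 0 1) := fun δ =>
    differentiableOn_cuspFunction_ball hNR (hper δ) (reInv_mdifferentiable_comp_SL_smul hH δ)
      (reInv_isBoundedAtImInfty_translate hcusp δ)
  have hKeq : ∀ δ (τ : ℍ), K δ (Periodic.qParam (N : ℝ) τ) = H (δ • τ) := fun δ τ =>
    eq_cuspFunction τ hNR.ne' (hper δ)
  have hsub : closedBall (0 : ℂ) r ⊆ ball 0 1 := closedBall_subset_ball hr1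
  -- the maximum of `re K δ` on the closed ball
  have hmaxex : ∀ δ, ∃ q ∈ closedBall (0 : ℂ) r, IsMaxOn (fun q => (K δ q).re) (closedBall 0 r) q := by
    intro δ
    refine (isCompact_closedBall (0 : ℂ) r).exists_isMaxOn ⟨0, by simpa using hr0⟩ ?_
    exact Complex.continuous_re.comp_continuousOn ((hKdiff δ).continuousOn.mono hsub)
  choose qmax hqmax_mem hqmax using hmaxex
  -- the sup of `re H ∘ δ` on `{im ≥ 1/2}`
  set A : Set ℍ := {τ : ℍ | 1 / 2 ≤ τ.im} with hA
  have hAne : A.Nonempty := ⟨UpperHalfPlane.I, by simp [hA]; norm_num⟩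
  set m : SL(2, ℤ) → ℝ := fun δ => sSup ((fun τ : ℍ => (H (δ • τ)).re) '' A) with hm
  have hle_max : ∀ δ : SL(2, ℤ), ∀ τ ∈ A, (H (δ • τ)).re ≤ (K δ (qmax δ)).re := by
    intro δ τ hτ
    rw [← hKeq δ τ]
    exact hqmax δ (reInv_qParam_mem_closedBall hNpos hτ)
  have hbdd : ∀ δ : SL(2, ℤ), BddAbove ((fun τ : ℍ => (H (δ • τ)).re) '' A) := by
    intro δ
    refine ⟨(K δ (qmax δ)).re, ?_⟩
    rintro x ⟨τ, hτ, rfl⟩
    exact hle_max δ τ hτ
  have hm_le : ∀ δ : SL(2, ℤ), m δ ≤ (K δ (qmax δ)).re := by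
    intro δ
    refine csSup_le (hAne.image _) ?_
    rintro x ⟨τ, hτ, rfl⟩
    exact hle_max δ τ hτ
  have hle_m : ∀ δ : SL(2, ℤ), ∀ τ ∈ A, (H (δ • τ)).re ≤ m δ := fun δ τ hτ =>
    le_csSup (hbdd δ) (mem_image_of_mem _ hτ)
  -- invariance of `m`
  have hm_inv : ∀ γ ∈ Γ, ∀ δ : SL(2, ℤ), m (γ * δ) = m δ := by
    intro γ hγ δ
    simp only [hm]
    congr 1
    refine image_congr fun τ _ => ?_
    rw [mul_smul]
    exact hinv γ hγ _
  -- `m` factors through the finite quotient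
  let m' : SL(2, ℤ) ⧸ Γ → ℝ := Quotient.lift (fun g => m g⁻¹) fun g h hgh => by
    obtain ⟨j, hj, hj'⟩ : ∃ j ∈ Γ, h = g * j := by
      rw [← Quotient.eq_iff_equiv, Quotient.eq, QuotientGroup.leftRel_apply] at hgh
      exact ⟨g⁻¹ * h, hgh, (mul_inv_cancel_left g h).symm⟩
    show m g⁻¹ = m h⁻¹
    rw [hj', mul_inv_rev, hm_inv j⁻¹ (inv_mem hj)]
  have : Fintype (SL(2, ℤ) ⧸ Γ) := Subgroup.fintypeQuotientOfFiniteIndex
  obtain ⟨x₀, hx₀⟩ := Finite.exists_max m'
  obtain ⟨g₀, rfl⟩ := QuotientGroup.mk_surjective x₀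
  set δs : SL(2, ℤ) := g₀⁻¹ with hδs
  have hmmax : ∀ δ : SL(2, ℤ), m δ ≤ m δs := by
    intro δ
    have := hx₀ (QuotientGroup.mk δ⁻¹)
    simpa [m'] using this
  -- global bound
  have hglobal : ∀ z : ℍ, (H z).re ≤ m δs := by
    intro z
    obtain ⟨g, hg⟩ := ModularGroup.exists_smul_mem_fd z
    have h1 : z = g⁻¹ • (g • z) := by rw [inv_smul_smul]
    have h2 := hle_m g⁻¹ (g • z) (reInv_half_le_im_of_mem_fd hg)
    rw [← h1] at h2
    exact h2.trans (hmmax _)
  -- the maximum principle on the unit disc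
  have hKmax : ∀ q ∈ ball (0 : ℂ) 1, (K δs q).re ≤ (K δs (qmax δs)).re := by
    intro q hq
    rcases eq_or_ne q 0 with rfl | hq0
    · exact hqmax δs (by simpa using hr0)
    · have hq1 : ‖q‖ < 1 := by simpa using hq
      have him := Periodic.im_invQParam_pos_of_norm_lt_one hNR hq1 hq0
      have h1 := hKeq δs ⟨_, him⟩
      have h2 : Periodic.qParam (N : ℝ) ((⟨_, him⟩ : ℍ) : ℂ) = q :=
        Periodic.qParam_right_inv hNR.ne' hq0
      rw [h2] at h1
      rw [h1]
      exact (hglobal _).trans (hm_le δs)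
  have hKconst := reInv_eq_of_isMaxOn_re isOpen_ball (convex_ball (0 : ℂ) 1).isPreconnected
    (hKdiff δs) (hsub (hqmax_mem δs)) hKmax
  have hconst : ∀ τ : ℍ, H (δs • τ) = K δs (qmax δs) := by
    intro τ
    rw [← hKeq δs τ]
    refine hKconst _ ?_
    rw [mem_ball_zero_iff]
    exact Periodic.norm_qParam_lt_one hNR τ.im_pos
  intro z w
  have hz := hconst (δs⁻¹ • z)
  have hw := hconst (δs⁻¹ • w)
  rw [smul_inv_smul] at hz hw
  rw [hz, hw]

end main

end Fermat.Agent.S21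
end MergeWrap_S21_ReInvariant
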